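import Mathlib
import Fermat.Prelude.Def_AlgebraicCurve_Correspondence
import Fermat.Agent.MUL.Lib.RR.Hurwitz.Count
import Fermat.Agent.MUL.Lib.Deuring.Generic
import Fermat.Agent.MUL.Orig.S24.Residue
import Fermat.Agent.MUL.Lib.BadRed.Bridge.PullAux

section MergeWrap_Lib_RedTr_FundIdK -- from Lib/RedTr/FundIdK.lean

set_option autoImplicit false
set_option linter.style.haveILetI false
set_option linter.unusedSectionVars false

noncomputable section

open AlgebraicCurve IntermediateField Fermat.Agent.RR

namespace Fermat.Agent.RedTr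

variable {K F F' : Type*} [Field K] [Field F] [Field F'] [Algebra K F] [Algebra K F']

/-- every place is the only pole of some function (Riemann's inequality). -/
theorem fundIdK_exists_only_pole (h : IsRRField K F) (P : Place K F) :
    ∃ f : F, f ≠ 0 ∧ P.ord f < 0 ∧ ∀ v : Place K F, v ≠ P → 0 ≤ v.ord f := by
  classical
  obtain ⟨γ, hγ⟩ := exists_riemann_bound h
  set n : ℕ := (γ + 2).toNat with hn
  have hn' : γ + 2 ≤ (n : ℤ) := Int.self_le_toNat _
  set D : Divisor K F := Finsupp.single P (n : ℤ) with hD
  have hdeg : Divisor.degree D = n := degree_single_one h P n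
  have hell : 2 ≤ ell D := by
    have := hγ D
    rw [hdeg] at this
    omega
  have h0D : (0 : Divisor K F) ≤ D := by
    rw [Finsupp.le_def]
    intro v
    rw [hD, Finsupp.single_apply]
    split_ifs <;> simp
  have hmono : riemannRochSpace (0 : Divisor K F) ≤ riemannRochSpace D :=
    riemannRochSpace_mono h0D
  have hex : ∃ f : F, f ∈ riemannRochSpace D ∧ f ∉ riemannRochSpace (0 : Divisor K F) := by
    by_contra hcon
    push Not at hcon
    have heq : riemannRochSpace D = riemannRochSpace (0 : Divisor K F) :=
      le_antisymm (fun f hf => hcon f hf) hmono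
    have h1 : ell D = ell (0 : Divisor K F) := by rw [ell_def, ell_def, heq]
    rw [ell_zero h] at h1
    omega
  obtain ⟨f, hfD, hf0⟩ := hex
  have hfne : f ≠ 0 := by
    rintro rfl
    exact hf0 (Submodule.zero_mem _)
  have hD' := mem_riemannRochSpace_iff.mp hfD
  have hother : ∀ v : Place K F, v ≠ P → 0 ≤ v.ord f := by
    intro v hv
    rcases hD' v with h1 | h1
    · exact absurd h1 hfne
    · rw [hD, Finsupp.single_apply, if_neg (Ne.symm hv), neg_zero] at h1
      exact h1
  refine ⟨f, hfne, ?_, hother⟩
  by_contra hP
  push Not at hP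
  apply hf0
  rw [mem_riemannRochSpace_iff]
  intro v
  right
  rw [Finsupp.zero_apply, neg_zero]
  by_cases hv : v = P
  · rw [hv]; exact hP
  · exact hother v hv

/-- a function with a pole is transcendental over the constants. -/
theorem fundIdK_transcendental (P : Place K F) {f : F} (hf : f ≠ 0) (hP : P.ord f < 0) :
    Transcendental K f := by
  intro halg
  have := Fermat.Agent.Deuring.ord_eq_zero_of_isAlgebraic P hf halg
  omega

/-- in the Riemann-Roch setting the field is finite over `K(f)` for every transcendental `f`. -/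
theorem fundIdK_finiteDimensional (h : IsRRField K F) {f : F} (hf : Transcendental K f) :
    FiniteDimensional K⟮f⟯ F := by
  obtain ⟨x, hx, hfd, -⟩ := h.exists_x
  exact Fermat.Agent.S24Res.finiteDimensional_adjoin_simple ⟨hx, hfd⟩ hf

/-- tower law `[F' : K(φ u)] = [F : K(u)] [F' : F]`. -/
theorem fundIdK_tower (φ : F →ₐ[K] F') (u : F) :
    Module.finrank K⟮φ u⟯ F' = Module.finrank K⟮u⟯ F * finrankAlong K φ := by
  letI := algebraAlong φ
  haveI := isScalarTower_along φ
  have h1 : Module.finrank K⟮u⟯ F * Module.finrank F F' = Module.finrank K⟮u⟯ F' :=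
    Module.finrank_mul_finrank K⟮u⟯ F F'
  show _ = Module.finrank K⟮u⟯ F * Module.finrank F F'
  rw [h1]
  have hmap : (K⟮u⟯).map φ = K⟮φ u⟯ := by rw [adjoin_map, Set.image_singleton]
  exact (Algebra.finrank_eq_of_equiv_equiv
    ((IntermediateField.equivMap K⟮u⟯ φ).trans (IntermediateField.equivOfEq hmap)).toRingEquiv
    (RingEquiv.refl F') (by ext x; rfl)).symm

/-- **Seat FI**: the fundamental identity in any characteristic, for function fields in the
Riemann-Roch setting. -/
theorem fundIdK (hE : IsRRField K F) (hF : IsRRField K F') (φ : F →ₐ[K] F')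
    (hφ : φ.toRingHom.IsIntegral) [HasPrincipalDivisors K F'] :
    FundamentalIdentityAlong K φ hφ := by
  letI := algebraAlong φ
  haveI := isScalarTower_along φ
  haveI := isIntegral_along φ hφ
  show FundamentalIdentity K F F'
  refine ⟨fun v => ?_⟩
  classical
  obtain ⟨u, hu0, hvu, hother⟩ := fundIdK_exists_only_pole hE v
  have hut : Transcendental K u := fundIdK_transcendental v hu0 hvu
  have hφut : Transcendental K (φ u) := fun h =>
    hut ((isAlgebraic_algHom_iff φ φ.injective).mp h)
  haveI := fundIdK_finiteDimensional hE hut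
  haveI := fundIdK_finiteDimensional hF hφut
  have hord : ∀ w : Place K F', w.ord (φ u) = w.ramificationIndex F * (w.restrict F).ord u :=
    fun w => w.ord_restrict u
  have hepos : ∀ w : Place K F', (0 : ℤ) < w.ramificationIndex F := fun w => by
    have := w.ramificationIndex_pos (F := F)
    exact_mod_cast this
  have hdE : Divisor.degree (poleDiv hE u) = -v.ord u := by
    rw [degree_poleDiv hE u {v} (fun w => ?_), Finset.sum_singleton]
    rw [Finset.mem_singleton]
    constructor
    · rintro rfl
      exact hvu
    · intro hw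
      by_contra hne
      have := hother w hne
      omega
  have hdF : Divisor.degree (poleDiv hF (φ u))
      = ∑ w ∈ v.fiber F', (w.ramificationIndex F : ℤ) * (-v.ord u) := by
    rw [degree_poleDiv hF (φ u) (v.fiber F') (fun w => ?_)]
    · refine Finset.sum_congr rfl fun w hw => ?_
      rw [Place.mem_fiber] at hw
      rw [hord w, hw]
      ring
    · rw [Place.mem_fiber, hord w]
      constructor
      · intro hw
        rw [hw]
        exact mul_neg_of_pos_of_neg (hepos w) hvu
      · intro hw
        by_contra hne
        have h1 := hother _ hne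
        have h2 := mul_nonneg (hepos w).le h1
        omega
  have h1 := Fermat.Agent.RRHur.degree_poleDiv_eq_finrank hE hut
  have h2 := Fermat.Agent.RRHur.degree_poleDiv_eq_finrank hF hφut
  have h3 : Module.finrank K⟮φ u⟯ F' = Module.finrank K⟮u⟯ F * Module.finrank F F' :=
    fundIdK_tower φ u
  rw [hdE] at h1
  rw [hdF, h3, ← Finset.sum_mul] at h2
  push_cast at h2
  rw [← h1] at h2
  have hm : (-v.ord u) ≠ 0 := by omega
  have h4 : ∑ w ∈ v.fiber F', (w.ramificationIndex F : ℤ) = (Module.finrank F F' : ℤ) := by
    have : (∑ w ∈ v.fiber F', (w.ramificationIndex F : ℤ)) * (-v.ord u)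
        = (Module.finrank F F' : ℤ) * (-v.ord u) := by rw [h2]; ring
    exact mul_right_cancel₀ hm this
  rw [hE.deg_one v, Nat.cast_one, mul_one, ← h4]
  refine Finset.sum_congr rfl fun w _ => ?_
  rw [hF.deg_one w, Nat.cast_one, mul_one]

end Fermat.Agent.RedTr
end
end MergeWrap_Lib_RedTr_FundIdK
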