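import Mathlib
import Fermat.Agent.MUL.Lib.RedTr.Defs
import Fermat.Agent.MUL.Lib.RedTr.FundIdK
import Fermat.Agent.MUL.F3.Transfer.Wrap
import Fermat.Agent.MUL.F3.Transfer.PsiBound
import Fermat.Agent.MUL.Lib.GenusEq.Inputs
import Fermat.Agent.MUL.Lib.GaussInt.ModularInst
import Fermat.Agent.MUL.S24.GlobalDatum
import Fermat.Agent.MUL.Lib.FF.RedValue

section MergeWrap_Lib_RedTr_ModularCompat -- from Lib/RedTr/ModularCompat.lean

set_option autoImplicit false
set_option linter.style.haveILetI false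
set_option linter.unusedSectionVars false
set_option synthInstance.maxHeartbeats 400000

noncomputable section

open AlgebraicCurve ModularCurve IntermediateField Fermat.Agent.RR Fermat.Agent.Deuring
  Fermat.Agent.FF Fermat.Agent.GaussInt Fermat.Agent.F3T

namespace Fermat.Agent.RedTr

section Generic

variable {K E F : Type*} [Field K] [Field E] [Field F] [Algebra K E] [Algebra K F]

/-- a morphism of fields over `K` is finite if `F` is finite over `K(φ x)`. -/
theorem mc_finiteAlong (φ : E →ₐ[K] F) (x : E) [FiniteDimensional K⟮φ x⟯ F] :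
    FiniteAlong K φ := by
  letI := algebraAlong φ
  obtain ⟨S, hS⟩ := Module.Finite.fg_top (R := K⟮φ x⟯) (M := F)
  have hle : K⟮φ x⟯ ≤ φ.fieldRange := by
    rw [IntermediateField.adjoin_le_iff, Set.singleton_subset_iff]
    exact ⟨x, rfl⟩
  show Module.Finite E F
  refine ⟨⟨S, ?_⟩⟩
  rw [eq_top_iff]
  rintro z -
  have hz : z ∈ Submodule.span K⟮φ x⟯ (S : Set F) := by
    rw [hS]
    trivial
  induction hz using Submodule.span_induction with
  | mem w hw => exact Submodule.subset_span hw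
  | zero => exact zero_mem _
  | add a b _ _ ha hb => exact add_mem ha hb
  | smul c w _ hw =>
    obtain ⟨y, hy⟩ := hle c.2
    have h1 : c • w = y • w := by
      rw [Algebra.smul_def, Algebra.smul_def]
      congr 1
      exact hy.symm
    rw [h1]
    exact Submodule.smul_mem _ _ hw

end Generic

section FullC

variable (k : Type*) [Field k] {N M : ℕ} [NeZero N] [NeZero M]

/-- `F_{k,N} ⊆ F_{k,M}` for `N ∣ M`. -/
theorem mc_fullC_le (h : N ∣ M) :
    modularFunctionFieldFullC k N ≤ modularFunctionFieldFullC k M := by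
  unfold modularFunctionFieldFullC
  apply IntermediateField.adjoin.mono
  rintro _ ⟨d, hd0, hd, rfl⟩
  exact ⟨d, hd0, hd.trans h, rfl⟩

/-- the inclusion `F_{k,N} → F_{k,M}`. -/
def mc_inclC (h : N ∣ M) :
    modularFunctionFieldFullC k N →ₐ[k] modularFunctionFieldFullC k M :=
  IntermediateField.inclusion (mc_fullC_le k h)

@[simp]
theorem coe_mc_inclC (h : N ∣ M) (x : modularFunctionFieldFullC k N) :
    (mc_inclC k h x : LaurentSeries k) = (x : LaurentSeries k) :=
  IntermediateField.coe_inclusion _ x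

theorem mc_inclC_jC (h : N ∣ M) : mc_inclC k h (Fermat.Agent.RRMod.jC k N) = Fermat.Agent.RRMod.jC k M :=
  Subtype.ext rfl

end FullC

section Abstract

variable {K E F k Ek Fk : Type*} [Field K] [Field E] [Field F] [Algebra K E] [Algebra K F]
  [Field k] [Field Ek] [Field Fk] [Algebra k Ek] [Algebra k Fk]

/-- `Compat` from the inclusion `O_E ⊆ O_F` (the converse is automatic by scaling). -/
theorem mc_compat_of (SE : ValSetup K E k Ek) (SF : ValSetup K F k Fk) (φ : E →ₐ[K] F)
    (φk : Ek →ₐ[k] Fk) (hA : SE.A = SF.A) (hmono : ∀ y : E, y ∈ SE.Ov → φ y ∈ SF.Ov)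
    (hred : ∀ y : E, y ∈ SE.Ov → SF.red (φ y) = φk (SE.red y))
    (hfin : FiniteAlong K φ) (hfink : FiniteAlong k φk)
    (hdeg : finrankAlong K φ = finrankAlong k φk) : Compat SE SF φ φk := by
  refine ⟨hA, fun y => ⟨fun hy => ?_, hmono y⟩, hred, hfin, hfink, hdeg⟩
  rcases eq_or_ne y 0 with rfl | hy0
  · exact zero_mem _
  obtain ⟨c, hc0, hu, hu'⟩ := SE.scale y hy0
  have hcN : algebraMap K E c ≠ 0 := (map_ne_zero _).mpr hc0
  have h1 : φ ((y * (algebraMap K E c)⁻¹)⁻¹) ∈ SF.Ov := hmono _ hu'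
  have h2 : algebraMap K F c = φ y * φ ((y * (algebraMap K E c)⁻¹)⁻¹) := by
    rw [← map_mul, ← φ.commutes]
    congr 1
    rw [mul_inv, inv_inv, ← mul_assoc, mul_inv_cancel₀ hy0, one_mul]
  have h3 : algebraMap K F c ∈ SF.Ov := by
    rw [h2]
    exact mul_mem hy h1
  have hcA : c ∈ SE.A := by
    rw [hA]
    exact (SF.mem_Ov_iff c).mp h3
  have h4 : y = algebraMap K E c * (y * (algebraMap K E c)⁻¹) := by
    rw [mul_comm y, ← mul_assoc, mul_inv_cancel₀ hcN, one_mul]
  rw [h4]
  exact mul_mem (SE.algebraMap_mem hcA) hu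

end Abstract

section Modular

variable (A : ValuationSubring (AlgebraicClosure ℚ)) (ℓ N M : ℕ) [NeZero N] [NeZero M]
variable (hℓ : ℓ.Prime) (hA : A.LiesOverPrime ℓ) (hℓN : ¬ ℓ ∣ N) (hℓM : ¬ ℓ ∣ M) (h : N ∣ M)

/-- `O_N ⊆ O_M`. -/
theorem mc_mem_of_mem {y : modularFunctionFieldBar N}
    (hy : y ∈ (modularValSetup A ℓ N hℓ hA hℓN).Ov) :
    inclBar h y ∈ (modularValSetup A ℓ M hℓ hA hℓM).Ov := by
  have hy' : (y : LaurentSeries (AlgebraicClosure ℚ)) ∈ gaussSub A (modularFunctionFieldBar N) :=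
    (mem_modularValSetup_Ov_iff A ℓ N hℓ hA hℓN y).mp hy
  refine (mem_modularValSetup_Ov_iff A ℓ M hℓ hA hℓM (inclBar h y)).mpr ?_
  rw [coe_inclBar]
  exact gaussSub_mono (bar_le h) hy'

/-- the reductions are compatible. -/
theorem mc_red_map {y : modularFunctionFieldBar N}
    (hy : y ∈ (modularValSetup A ℓ N hℓ hA hℓN).Ov) :
    (modularValSetup A ℓ M hℓ hA hℓM).red (inclBar h y) =
      mc_inclC (IsLocalRing.ResidueField A) h ((modularValSetup A ℓ N hℓ hA hℓN).red y) := by
  apply Subtype.ext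
  have hy' : (y : LaurentSeries (AlgebraicClosure ℚ)) ∈ gaussSub A (modularFunctionFieldBar N) :=
    (mem_modularValSetup_Ov_iff A ℓ N hℓ hA hℓN y).mp hy
  have hyM : ((inclBar h y : modularFunctionFieldBar M) : LaurentSeries (AlgebraicClosure ℚ)) ∈
      gaussSub A (modularFunctionFieldBar M) :=
    (mem_modularValSetup_Ov_iff A ℓ M hℓ hA hℓM (inclBar h y)).mp
      (mc_mem_of_mem A ℓ N M hℓ hA hℓN hℓM h hy)
  have e1 := coe_modularValSetup_red A ℓ M hℓ hA hℓM hyM
  have e2 := coe_modularValSetup_red A ℓ N hℓ hA hℓN hy'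
  have e3 : gaussResFun A (modularFunctionFieldBar M) (y : LaurentSeries (AlgebraicClosure ℚ)) =
      gaussResFun A (modularFunctionFieldBar N) (y : LaurentSeries (AlgebraicClosure ℚ)) :=
    gaussResFun_mono (bar_le h) hy'
  rw [coe_inclBar] at e1
  rw [e1, coe_mc_inclC, e2, e3]

/-- finiteness in characteristic `0`. -/
theorem mc_finite_bar : FiniteAlong (AlgebraicClosure ℚ) (inclBar h) := by
  haveI : FiniteDimensional (AlgebraicClosure ℚ)⟮inclBar h (Fermat.Agent.S24.jBar N)⟯
      (modularFunctionFieldBar M) := by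
    rw [inclBar_jBar]
    exact Fermat.Agent.S24.finiteDimensional_adjoin_jBar M
  exact mc_finiteAlong (inclBar h) (Fermat.Agent.S24.jBar N)

/-- finiteness in characteristic `ℓ`. -/
theorem mc_finite_fullC (k : Type*) [Field k] [IsAlgClosed k]
    (hRR : IsRRField k (modularFunctionFieldFullC k M)) :
    FiniteAlong k (mc_inclC k h) := by
  haveI : FiniteDimensional k⟮mc_inclC k h (Fermat.Agent.RRMod.jC k N)⟯
      (modularFunctionFieldFullC k M) := by
    rw [mc_inclC_jC]
    exact fundIdK_finiteDimensional hRR (Fermat.Agent.RRMod.transcendental_jC k M)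
  exact mc_finiteAlong _ (Fermat.Agent.RRMod.jC k N)

include hℓ hA hℓN hℓM in
/-- the degrees agree. -/
theorem mc_finrank_eq :
    finrankAlong (AlgebraicClosure ℚ) (inclBar h) =
      finrankAlong (IsLocalRing.ResidueField A) (mc_inclC (IsLocalRing.ResidueField A) h) := by
  have hK := fundIdK_tower (inclBar h) (Fermat.Agent.S24.jBar N)
  rw [inclBar_jBar, Fermat.Agent.GenusEq.finrank_jBar_eq_psi,
    Fermat.Agent.GenusEq.finrank_jBar_eq_psi] at hK
  have hk := fundIdK_tower (mc_inclC (IsLocalRing.ResidueField A) h)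
    (Fermat.Agent.RRMod.jC (IsLocalRing.ResidueField A) N)
  rw [mc_inclC_jC, Fermat.Agent.GenusEq.degreeModL M ℓ hℓ hℓM A hA,
    Fermat.Agent.GenusEq.degreeModL N ℓ hℓ hℓN A hA] at hk
  have hpos : 0 < dedekindPsi N := dedekindPsi_pos' (Nat.pos_of_ne_zero (NeZero.ne N))
  exact Nat.eq_of_mul_eq_mul_left hpos (hK.symm.trans hk)

/-- **Seat G**: the modular Gauss valuations at levels `N ∣ M` are compatible. -/
theorem mc_compat :
    Compat (modularValSetup A ℓ N hℓ hA hℓN) (modularValSetup A ℓ M hℓ hA hℓM) (inclBar h)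
      (mc_inclC (IsLocalRing.ResidueField A) h) :=
  haveI := isAlgClosed_residue A
  mc_compat_of _ _ _ _
    ((modularValSetup_A A ℓ N hℓ hA hℓN).trans (modularValSetup_A A ℓ M hℓ hA hℓM).symm)
    (fun _ hy => mc_mem_of_mem A ℓ N M hℓ hA hℓN hℓM h hy)
    (fun _ hy => mc_red_map A ℓ N M hℓ hA hℓN hℓM h hy)
    (mc_finite_bar N M h)
    (mc_finite_fullC N M h _ (modularValSetup A ℓ M hℓ hA hℓM).hFk)
    (mc_finrank_eq A ℓ N M hℓ hA hℓN hℓM h)

end Modular

end Fermat.Agent.RedTr
end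
end MergeWrap_Lib_RedTr_ModularCompat
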