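import Mathlib
import Fermat.Agent.MUL.Lib.RedTr.Defs
import Fermat.Agent.MUL.Orig.Lib.EllRed.Galois

section MergeWrap_Lib_RedTr_NormRed -- from Lib/RedTr/NormRed.lean

set_option autoImplicit false
set_option linter.style.haveILetI false

open AlgebraicCurve Fermat.Agent.RR Fermat.Agent.Deuring Fermat.Agent.FF

namespace Fermat.Agent.RedTr

section Abstract

variable {E F Ek Fk : Type*} [Field E] [Field F] [Algebra E F] [Field Ek] [Field Fk]
  [Algebra Ek Fk] (OE : ValuationSubring E) (OF : ValuationSubring F)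
  (ρE : OE →+* Ek) (ρF : OF →+* Fk)

/-- the hypotheses of the abstract norm lemma -/
structure NormSetup : Prop where
  mem_iff : ∀ y : E, algebraMap E F y ∈ OF ↔ y ∈ OE
  red_map : ∀ (y : E) (hy : y ∈ OE) (hy' : algebraMap E F y ∈ OF),
    ρF ⟨algebraMap E F y, hy'⟩ = algebraMap Ek Fk (ρE ⟨y, hy⟩)
  ker : ∀ y : OE, ¬ IsUnit y → ρE y = 0

variable {OE OF ρE ρF}

/-- the core scaling argument: a combination `Σ (c i / c j) • b i` of lifts of independent
residues, normalised at the coefficient of largest valuation, cannot reduce to zero. -/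
theorem normRed_core (H : NormSetup OE OF ρE ρF) {ι : Type*} [Fintype ι] (b : ι → OF)
    (hli : LinearIndependent Ek (fun i => ρF (b i))) (c : ι → E) (j : ι) (hj : c j ≠ 0)
    (hmax : ∀ i, OE.valuation (c i) ≤ OE.valuation (c j))
    (s : OF) (hs : (s : F) = ∑ i, (c i / c j) • (b i : F)) : ρF s ≠ 0 := by
  classical
  intro h0
  have hmem : ∀ i, c i / c j ∈ OE := by
    intro i
    rw [← OE.valuation_le_one_iff, map_div₀]
    exact div_le_one_of_le₀ (hmax i) zero_le
  have hmem' : ∀ i, algebraMap E F (c i / c j) ∈ OF := fun i => (H.mem_iff _).mpr (hmem i)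
  have hs' : s = ∑ i, (⟨algebraMap E F (c i / c j), hmem' i⟩ : OF) * b i := by
    apply Subtype.ext
    rw [hs]
    have h1 : ((∑ i, (⟨algebraMap E F (c i / c j), hmem' i⟩ : OF) * b i : OF) : F)
        = ∑ i, (((⟨algebraMap E F (c i / c j), hmem' i⟩ : OF) * b i : OF) : F) :=
      map_sum OF.subtype _ _
    rw [h1]
    refine Finset.sum_congr rfl (fun i _ => ?_)
    rw [Algebra.smul_def]
    rfl
  rw [hs', map_sum] at h0
  have h1 : ∑ i, (ρE ⟨c i / c j, hmem i⟩) • ρF (b i) = 0 := by
    rw [← h0]
    refine Finset.sum_congr rfl (fun i _ => ?_)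
    rw [map_mul, H.red_map _ (hmem i), Algebra.smul_def]
  have h2 := Fintype.linearIndependent_iff.mp hli _ h1 j
  have h3 : (⟨c j / c j, hmem j⟩ : OE) = 1 := by
    apply Subtype.ext
    exact div_self hj
  rw [h3, map_one] at h2
  exact one_ne_zero h2

/-- lifts of `Ek`-independent residues are `E`-independent. -/
theorem normRed_linearIndependent (H : NormSetup OE OF ρE ρF) {ι : Type*} [Fintype ι]
    (b : ι → OF) (hli : LinearIndependent Ek (fun i => ρF (b i))) :
    LinearIndependent E (fun i => (b i : F)) := by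
  classical
  rw [Fintype.linearIndependent_iff]
  intro g hg
  by_contra hne
  push Not at hne
  obtain ⟨i0, hi0⟩ := hne
  have : Nonempty ι := ⟨i0⟩
  obtain ⟨j, hj⟩ := Finite.exists_max (fun i => OE.valuation (g i))
  have hgj : g j ≠ 0 := by
    intro h0
    have h1 := hj i0
    simp only [h0, map_zero] at h1
    exact hi0 ((map_eq_zero _).mp (le_antisymm h1 zero_le))
  refine normRed_core H b hli g j hgj hj 0 ?_ (map_zero ρF)
  have h1 : ∑ i, (g i / g j) • (b i : F) = (g j)⁻¹ • ∑ i, g i • (b i : F) := by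
    rw [Finset.smul_sum]
    refine Finset.sum_congr rfl (fun i _ => ?_)
    rw [smul_smul, div_eq_inv_mul]
  rw [h1, hg, smul_zero]
  rfl

/-- the coordinates of an integral element with respect to lifts of independent residues are
integral. -/
theorem normRed_coord_mem (H : NormSetup OE OF ρE ρF) {ι : Type*} [Fintype ι]
    (b : ι → OF) (hli : LinearIndependent Ek (fun i => ρF (b i))) (c : ι → E) (t : OF)
    (ht : (t : F) = ∑ i, c i • (b i : F)) (i : ι) : c i ∈ OE := by
  classical
  by_contra hne
  have : Nonempty ι := ⟨i⟩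
  obtain ⟨j, hj⟩ := Finite.exists_max (fun i => OE.valuation (c i))
  have hi : 1 < OE.valuation (c i) := by
    rw [← OE.valuation_le_one_iff] at hne
    exact not_le.mp hne
  have hjv : 1 < OE.valuation (c j) := lt_of_lt_of_le hi (hj i)
  have hcj : c j ≠ 0 := by
    intro h0
    rw [h0, map_zero] at hjv
    exact not_lt.mpr zero_le hjv
  have hinv_lt : OE.valuation (c j)⁻¹ < 1 := by
    rw [map_inv₀]
    exact inv_lt_one_of_one_lt₀ hjv
  have hinv : (c j)⁻¹ ∈ OE := (OE.valuation_le_one_iff _).mp hinv_lt.le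
  have hnu : ¬ IsUnit (⟨(c j)⁻¹, hinv⟩ : OE) := by
    rw [ValuationSubring.valuation_eq_one_iff]
    exact hinv_lt.ne
  have hinv' : algebraMap E F (c j)⁻¹ ∈ OF := (H.mem_iff _).mpr hinv
  refine normRed_core H b hli c j hcj hj (⟨algebraMap E F (c j)⁻¹, hinv'⟩ * t) ?_ ?_
  · have h1 : ∑ i, (c i / c j) • (b i : F) = (c j)⁻¹ • ∑ i, c i • (b i : F) := by
      rw [Finset.smul_sum]
      refine Finset.sum_congr rfl (fun i _ => ?_)
      rw [smul_smul, div_eq_inv_mul]
    rw [h1, ← ht, Algebra.smul_def]
    rfl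
  · rw [map_mul, H.red_map _ hinv, H.ker _ hnu, map_zero, zero_mul]

/-- **The abstract norm lemma**: norms of integral elements are integral and reduce to norms. -/
theorem normRed_abstract (H : NormSetup OE OF ρE ρF) [Module.Finite E F] [Module.Finite Ek Fk]
    (hrank : Module.finrank E F = Module.finrank Ek Fk) (hsurj : Function.Surjective ρF)
    (t : OF) :
    ∃ h : Algebra.norm E (t : F) ∈ OE,
      ρE ⟨Algebra.norm E (t : F), h⟩ = Algebra.norm Ek (ρF t) := by
  classical
  set β := Module.finBasis Ek Fk with hβ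
  choose b hb using fun i => hsurj (β i)
  have hli : LinearIndependent Ek (fun i => ρF (b i)) := by
    have h1 : (fun i => ρF (b i)) = β := funext hb
    rw [h1]
    exact β.linearIndependent
  have hliE := normRed_linearIndependent H b hli
  have hcard : Fintype.card (Fin (Module.finrank Ek Fk)) = Module.finrank E F := by
    rw [Fintype.card_fin, hrank]
  have hne : Nonempty (Fin (Module.finrank Ek Fk)) := ⟨⟨0, Module.finrank_pos⟩⟩
  set B : Module.Basis (Fin (Module.finrank Ek Fk)) E F :=
    basisOfLinearIndependentOfCardEqFinrank hliE hcard with hB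
  have hBb : ∀ i, B i = (b i : F) := by
    intro i
    rw [hB, coe_basisOfLinearIndependentOfCardEqFinrank]
  -- the multiplication matrix
  set M := Algebra.leftMulMatrix B (t : F) with hM
  have hMexp : ∀ j, ((t * b j : OF) : F) = ∑ i, M i j • (b i : F) := by
    intro j
    have h1 := B.sum_repr ((t : F) * B j)
    show (t : F) * (b j : F) = _
    rw [← hBb j, ← h1]
    refine Finset.sum_congr rfl (fun i _ => ?_)
    rw [hM, Algebra.leftMulMatrix_eq_repr_mul, hBb i]
  have hMmem : ∀ i j, M i j ∈ OE := fun i j =>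
    normRed_coord_mem H b hli (fun i => M i j) (t * b j) (hMexp j) i
  set M' : Matrix (Fin (Module.finrank Ek Fk)) (Fin (Module.finrank Ek Fk)) OE :=
    fun i j => ⟨M i j, hMmem i j⟩ with hM'
  have hMM' : M = M'.map OE.subtype := by
    ext i j
    rfl
  have hnorm : Algebra.norm E (t : F) = ((M'.det : OE) : E) := by
    rw [Algebra.norm_eq_matrix_det B, ← hM, hMM']
    exact (RingHom.map_det OE.subtype M').symm
  have hmem : Algebra.norm E (t : F) ∈ OE := by
    rw [hnorm]
    exact (M'.det).2
  refine ⟨hmem, ?_⟩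
  have h1 : (⟨Algebra.norm E (t : F), hmem⟩ : OE) = M'.det := Subtype.ext hnorm
  rw [h1, RingHom.map_det, Algebra.norm_eq_matrix_det β]
  congr 1
  ext i j
  rw [Algebra.leftMulMatrix_eq_repr_mul, RingHom.mapMatrix_apply, Matrix.map_apply]
  -- reduce the expansion of `t * b j`
  have hexp : t * b j = ∑ i, (⟨algebraMap E F (M i j), (H.mem_iff _).mpr (hMmem i j)⟩ : OF)
      * b i := by
    apply Subtype.ext
    rw [hMexp j]
    have h2 : ((∑ i, (⟨algebraMap E F (M i j), (H.mem_iff _).mpr (hMmem i j)⟩ : OF) * b i : OF)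
        : F) = ∑ i, (((⟨algebraMap E F (M i j), (H.mem_iff _).mpr (hMmem i j)⟩ : OF) * b i : OF)
        : F) := map_sum OF.subtype _ _
    rw [h2]
    refine Finset.sum_congr rfl (fun i _ => ?_)
    rw [Algebra.smul_def]
    rfl
  have hred : ρF t * β j = ∑ i, ρE (M' i j) • β i := by
    rw [← hb j, ← map_mul, hexp, map_sum]
    refine Finset.sum_congr rfl (fun i _ => ?_)
    rw [map_mul, H.red_map _ (hMmem i j), Algebra.smul_def, hb]
  rw [hred, β.repr_sum_self]

end Abstract

section Main

variable {K E F k Ek Fk : Type*} [Field K] [Field E] [Field F] [Algebra K E] [Algebra K F]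
  [Field k] [Field Ek] [Field Fk] [Algebra k Ek] [Algebra k Fk]
  {SE : ValSetup K E k Ek} {SF : ValSetup K F k Fk} {φ : E →ₐ[K] F} {φk : Ek →ₐ[k] Fk}

/-- **Seat N1**: the norm of an integral element is integral and reduces to the norm of the
reduction. -/
theorem normRed (C : Compat SE SF φ φk) : NormRed SE SF φ φk := by
  letI := algebraAlong φ
  letI := algebraAlong φk
  intro t ht
  have H : NormSetup SE.Ov SF.Ov SE.ρ SF.ρ :=
    { mem_iff := C.mem_iff
      red_map := by
        intro y hy hy'
        have h1 := C.red_map y hy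
        have hy'' : φ y ∈ SF.Ov := hy'
        simp only [ValSetup.red, dif_pos hy, dif_pos hy''] at h1
        exact h1
      ker := fun y hy => (SE.ρ_eq_zero_iff y).mpr hy }
  haveI : Module.Finite E F := C.finite
  haveI : Module.Finite Ek Fk := C.finite_k
  obtain ⟨h, hn⟩ := normRed_abstract H C.finrank_eq SF.ρ_surj ⟨t, ht⟩
  refine ⟨h, ?_⟩
  have h1 : SE.red (Algebra.norm E t) = SE.ρ ⟨Algebra.norm E t, h⟩ := by
    simp only [ValSetup.red, dif_pos h]
  have h2 : SF.red t = SF.ρ ⟨t, ht⟩ := by
    simp only [ValSetup.red, dif_pos ht]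
  rw [h1, h2]
  exact hn

end Main

end Fermat.Agent.RedTr
end MergeWrap_Lib_RedTr_NormRed
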